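/-
helper57 (P-ORD, block B1, sub-row PO-D of row 1155 [HART], dispatched by helper91):
**a valuation subring of `F_{ℚ̄}` restricting to a place of `F_{K₁}` IS a place.**

* `po_place_of_val_abs` : abstract form (twin of `Fermat.Agent.H73.KLDesc.exists_place_of_constExt`
  with the Chevalley extension replaced by a GIVEN valuation subring `V` of `E` with
  `V ∩ F₁ = O_{P₁}`): `V` is the valuation ring of a place `P` of `E / K` and
  `ord_P f = ord_{P₁} f` on `F₁`.
* `po_place_of_val` : the instance `F₁ = laurentBaseChange K₁ F₀`, `E = laurentBaseChange ℚ̄ F₀`,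
  along `klBc ι F₀` (unconditional, with `Fermat.Agent.H93.KL.constExtUnramified`).
* `po_place_of_valSubring` : the variant where the place of `F_{K₁}` is given as a valuation
  subring `V₁` (containing the constants, `≠ ⊤`, principal).
-/
import Fermat.Agent.H73.KLPlaceDesc
import Fermat.Agent.H93.KL.DescFinal

set_option autoImplicit false
set_option linter.style.haveILetI false

noncomputable section

open AlgebraicCurve ModularCurve Fermat.Agent.H93.KL

namespace Fermat.Agent.H57.ORD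

section abstract

/-- **Abstract form.**  `E` is generated over `F₁` by the image of a field `K` of elements
integral over the constant field `K₁` of `F₁`; `V` is a valuation subring of `E` whose
restriction to `F₁` is the valuation ring of the place `P₁`.  Then `V` is (the valuation ring of)
a place of `E / K`, with ramification index one over `P₁`. -/
theorem po_place_of_val_abs (h : Fermat.Agent.H93.KL.ConstExtUnramifiedStatement)
    (K₁ F₁ K E : Type) [Field K₁] [Field F₁] [Field K] [Field E] [CharZero K₁]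
    [Algebra K₁ F₁] [Algebra F₁ E] [Algebra K₁ E] [IsScalarTower K₁ F₁ E] [Algebra K E]
    (hint : ∀ c : K, IsIntegral K₁ (algebraMap K E c))
    (hgen : IntermediateField.adjoin F₁ (Set.range (algebraMap K E)) = ⊤)
    (P₁ : Place K₁ F₁) (V : ValuationSubring E)
    (hV : ∀ x : F₁, algebraMap F₁ E x ∈ V ↔ x ∈ P₁.toValuationSubring) :
    ∃ P : Place K E, P.toValuationSubring = V ∧
      ∀ f : F₁, P.ord (algebraMap F₁ E f) = P₁.ord f := by
  obtain ⟨π, hπ⟩ := IsDiscreteValuationRing.exists_irreducible P₁.toValuationSubring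
  have hπord : P₁.ord (π : F₁) = 1 := P₁.ord_coe_irreducible hπ
  have hπ0 : (π : F₁) ≠ 0 := by
    intro h0
    rw [h0, Place.ord_zero] at hπord
    omega
  have hπi : (π : F₁)⁻¹ ∉ P₁.toValuationSubring := by
    intro hmem
    have := Fermat.Agent.H29.place_ord_nonneg_of_mem P₁ hmem
    rw [Place.ord_inv, hπord] at this
    omega
  have hunif : ∀ x : F₁, x ≠ 0 → ∃ n : ℤ, x * (π : F₁) ^ n ∈ P₁.toValuationSubring ∧
      (x * (π : F₁) ^ n)⁻¹ ∈ P₁.toValuationSubring := by
    intro x hx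
    have hord : P₁.ord (x * (π : F₁) ^ (-P₁.ord x)) = 0 := by
      rw [P₁.ord_mul hx (zpow_ne_zero _ hπ0), P₁.ord_zpow, hπord]
      ring
    refine ⟨-P₁.ord x, Fermat.Agent.H29.place_mem_of_ord_nonneg P₁ hord.ge,
      Fermat.Agent.H29.place_mem_of_ord_nonneg P₁ ?_⟩
    rw [Place.ord_inv, hord, neg_zero]
  have key := h K₁ F₁ E (Set.range (algebraMap K E)) (by rintro _ ⟨c, rfl⟩; exact hint c) hgen
    P₁.toValuationSubring V P₁.algebraMap_mem' hV (π : F₁) π.2 hπi hunif
  have hτ : algebraMap F₁ E (π : F₁) ∈ V := (hV _).mpr π.2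
  have hτi : (algebraMap F₁ E (π : F₁))⁻¹ ∉ V := by
    rw [← map_inv₀]
    exact fun hmem => hπi ((hV _).mp hmem)
  obtain ⟨hirr, hdvr⟩ := Fermat.Agent.H73.KLDesc.irreducible_and_dvr V _ hτ hτi key
  -- the constants lie in `V`
  have hK₁V : ∀ a : K₁, algebraMap K₁ E a ∈ V := by
    intro a
    rw [IsScalarTower.algebraMap_apply K₁ F₁ E]
    exact (hV _).mpr (P₁.algebraMap_mem' a)
  have hKV : ∀ c : K, algebraMap K E c ∈ V := by
    intro c
    letI : Algebra K₁ V := ((algebraMap K₁ E).codRestrict V.toSubring hK₁V).toAlgebra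
    haveI : IsScalarTower K₁ V E := IsScalarTower.of_algebraMap_eq (fun a => rfl)
    have hc : IsIntegral V (algebraMap K E c) := (hint c).tower_top
    obtain ⟨a, ha⟩ := IsIntegrallyClosed.isIntegral_iff.mp hc
    rw [← ha]
    exact a.2
  have hVtop : V ≠ ⊤ := by
    intro htop
    exact hτi (htop ▸ ValuationSubring.mem_top _)
  let P : Place K E :=
    { toValuationSubring := V
      algebraMap_mem' := hKV
      ne_top' := hVtop
      isPrincipalIdealRing' := inferInstance }
  refine ⟨P, rfl, fun f => ?_⟩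
  rcases eq_or_ne f 0 with rfl | hf
  · simp
  obtain ⟨u, hu⟩ := P₁.exists_unit_mul_zpow hf hπ
  have hu0 : ((u : P₁.toValuationSubring) : F₁) ≠ 0 := by
    intro h0
    rw [h0, zero_mul] at hu
    exact hf hu
  have huV : algebraMap F₁ E ((u : P₁.toValuationSubring) : F₁) ∈ V :=
    (hV _).mpr (u : P₁.toValuationSubring).2
  have huVi : (algebraMap F₁ E ((u : P₁.toValuationSubring) : F₁))⁻¹ ∈ V := by
    rw [← map_inv₀]
    refine (hV _).mpr ?_
    have := (u⁻¹ : P₁.toValuationSubringˣ).1.2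
    have hcoe : (((u⁻¹ : P₁.toValuationSubringˣ) : P₁.toValuationSubring) : F₁)
        = ((u : P₁.toValuationSubring) : F₁)⁻¹ := by
      have h1 : ((u : P₁.toValuationSubring) : F₁) *
          (((u⁻¹ : P₁.toValuationSubringˣ) : P₁.toValuationSubring) : F₁) = 1 :=
        congrArg Subtype.val u.mul_inv
      exact eq_inv_of_mul_eq_one_right h1
    rw [← hcoe]
    exact this
  have hordu : P.ord (algebraMap F₁ E ((u : P₁.toValuationSubring) : F₁)) = 0 := by
    have h1 := Fermat.Agent.H29.place_ord_nonneg_of_mem P huV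
    have h2 := Fermat.Agent.H29.place_ord_nonneg_of_mem P huVi
    rw [Place.ord_inv] at h2
    omega
  have hordτ : P.ord (algebraMap F₁ E (π : F₁)) = 1 :=
    P.ord_coe_irreducible (π := ⟨_, hτ⟩) hirr
  conv_lhs => rw [hu]
  rw [map_mul, map_zpow₀,
    P.ord_mul ((map_ne_zero (algebraMap F₁ E)).mpr hu0)
      (zpow_ne_zero _ ((map_ne_zero (algebraMap F₁ E)).mpr hπ0)),
    P.ord_zpow, hordu, hordτ]
  ring

end abstract

section concrete

/-- **PO-D.**  A valuation subring `O` of `F_{ℚ̄}` whose restriction along `klBc ι F₀` is the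
valuation ring of a place `P₁` of `F_{K₁} / K₁` is the valuation ring of a place `P` of
`F_{ℚ̄} / ℚ̄`, and `ord_P (klBc f) = ord_{P₁} f`. -/
theorem po_place_of_val (F₀ : IntermediateField ℚ (LaurentSeries ℚ))
    (K₁ : Type) [Field K₁] [Algebra ℚ K₁] (ι : K₁ →+* QBar)
    (P₁ : Place K₁ ↥(laurentBaseChange K₁ F₀))
    (O : ValuationSubring ↥(laurentBaseChange QBar F₀))
    (hO : ∀ x : ↥(laurentBaseChange K₁ F₀), klBc ι F₀ x ∈ O ↔ x ∈ P₁.toValuationSubring) :
    ∃ P : Place QBar ↥(laurentBaseChange QBar F₀), P.toValuationSubring = O ∧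
      ∀ f : ↥(laurentBaseChange K₁ F₀), P.ord (klBc ι F₀ f) = P₁.ord f := by
  haveI : CharZero K₁ := charZero_of_injective_algebraMap (algebraMap ℚ K₁).injective
  letI algF : Algebra ↥(laurentBaseChange K₁ F₀) ↥(laurentBaseChange QBar F₀) :=
    (klBc ι F₀).toAlgebra
  letI algK : Algebra K₁ ↥(laurentBaseChange QBar F₀) :=
    ((algebraMap QBar ↥(laurentBaseChange QBar F₀)).comp ι).toAlgebra
  haveI tower : IsScalarTower K₁ ↥(laurentBaseChange K₁ F₀) ↥(laurentBaseChange QBar F₀) :=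
    IsScalarTower.of_algebraMap_eq
      (fun a => (Fermat.Agent.H73.KLDesc.klBc_algebraMap ι F₀ a).symm)
  -- constants are integral over `K₁`
  have hint : ∀ c : QBar,
      IsIntegral K₁ (algebraMap QBar ↥(laurentBaseChange QBar F₀) c) := by
    intro c
    have hc : IsIntegral ℚ c := ((AlgebraicClosure.isAlgebraic ℚ).isAlgebraic c).isIntegral
    obtain ⟨p, hp, hpc⟩ := hc
    refine ⟨p.map (algebraMap ℚ K₁), hp.map _, ?_⟩
    rw [Polynomial.eval₂_map]
    have hcomp : (algebraMap K₁ ↥(laurentBaseChange QBar F₀)).comp (algebraMap ℚ K₁)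
        = (algebraMap QBar ↥(laurentBaseChange QBar F₀)).comp (algebraMap ℚ QBar) :=
      Subsingleton.elim _ _
    rw [hcomp, ← Polynomial.hom_eval₂, hpc, map_zero]
  -- `F_{ℚ̄}` is generated over `F_{K₁}` by the constants
  have hgen : IntermediateField.adjoin ↥(laurentBaseChange K₁ F₀)
      (Set.range (algebraMap QBar ↥(laurentBaseChange QBar F₀))) = ⊤ := by
    rw [eq_top_iff]
    rintro ⟨z, hz⟩ -
    exact Fermat.Agent.H73.KLDesc.mem_of_mem_closure ι F₀
      (IntermediateField.adjoin ↥(laurentBaseChange K₁ F₀)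
        (Set.range (algebraMap QBar ↥(laurentBaseChange QBar F₀)))).toSubfield
      (fun c => IntermediateField.subset_adjoin _ _ ⟨c, rfl⟩)
      (fun f => IntermediateField.algebraMap_mem _ f) z hz
  obtain ⟨P, hPV, hP⟩ := po_place_of_val_abs Fermat.Agent.H93.KL.constExtUnramified K₁
    ↥(laurentBaseChange K₁ F₀) QBar ↥(laurentBaseChange QBar F₀) hint hgen P₁ O hO
  exact ⟨P, hPV, hP⟩

/-- The place of `F_{K₁} / K₁` with a given valuation subring. -/
def poPlaceOfSubring {K₁ : Type} [Field K₁] [Algebra ℚ K₁]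
    (F₀ : IntermediateField ℚ (LaurentSeries ℚ))
    (V₁ : ValuationSubring ↥(laurentBaseChange K₁ F₀))
    (hK : ∀ c : K₁, algebraMap K₁ ↥(laurentBaseChange K₁ F₀) c ∈ V₁) (hV1 : V₁ ≠ ⊤)
    (hV2 : IsPrincipalIdealRing V₁) : Place K₁ ↥(laurentBaseChange K₁ F₀) where
  toValuationSubring := V₁
  algebraMap_mem' := hK
  ne_top' := hV1
  isPrincipalIdealRing' := hV2

@[simp] theorem poPlaceOfSubring_toValuationSubring {K₁ : Type} [Field K₁] [Algebra ℚ K₁]
    (F₀ : IntermediateField ℚ (LaurentSeries ℚ))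
    (V₁ : ValuationSubring ↥(laurentBaseChange K₁ F₀))
    (hK : ∀ c : K₁, algebraMap K₁ ↥(laurentBaseChange K₁ F₀) c ∈ V₁) (hV1 : V₁ ≠ ⊤)
    (hV2 : IsPrincipalIdealRing V₁) :
    (poPlaceOfSubring F₀ V₁ hK hV1 hV2).toValuationSubring = V₁ := rfl

/-- **PO-D, valuation-subring form.**  The same with the place of `F_{K₁}` given as a valuation
subring `V₁` (containing the constants, `≠ ⊤`, principal). -/
theorem po_place_of_valSubring (F₀ : IntermediateField ℚ (LaurentSeries ℚ))
    (K₁ : Type) [Field K₁] [Algebra ℚ K₁] (ι : K₁ →+* QBar)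
    (V₁ : ValuationSubring ↥(laurentBaseChange K₁ F₀))
    (hK : ∀ c : K₁, algebraMap K₁ ↥(laurentBaseChange K₁ F₀) c ∈ V₁) (hV1 : V₁ ≠ ⊤)
    (hV2 : IsPrincipalIdealRing V₁)
    (O : ValuationSubring ↥(laurentBaseChange QBar F₀))
    (hO : ∀ x : ↥(laurentBaseChange K₁ F₀), klBc ι F₀ x ∈ O ↔ x ∈ V₁) :
    ∃ P : Place QBar ↥(laurentBaseChange QBar F₀), P.toValuationSubring = O ∧
      ∀ f : ↥(laurentBaseChange K₁ F₀),
        P.ord (klBc ι F₀ f) = (poPlaceOfSubring F₀ V₁ hK hV1 hV2).ord f :=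
  po_place_of_val F₀ K₁ ι (poPlaceOfSubring F₀ V₁ hK hV1 hV2) O hO

/-- **PO-D, bare existence.**  `O` is the valuation ring of a place of `F_{ℚ̄} / ℚ̄`:
it contains the constants, is not the whole field, and is principal. -/
theorem po_isPlace_of_valSubring (F₀ : IntermediateField ℚ (LaurentSeries ℚ))
    (K₁ : Type) [Field K₁] [Algebra ℚ K₁] (ι : K₁ →+* QBar)
    (V₁ : ValuationSubring ↥(laurentBaseChange K₁ F₀))
    (hK : ∀ c : K₁, algebraMap K₁ ↥(laurentBaseChange K₁ F₀) c ∈ V₁) (hV1 : V₁ ≠ ⊤)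
    (hV2 : IsPrincipalIdealRing V₁)
    (O : ValuationSubring ↥(laurentBaseChange QBar F₀))
    (hO : ∀ x : ↥(laurentBaseChange K₁ F₀), klBc ι F₀ x ∈ O ↔ x ∈ V₁) :
    (∀ c : QBar, algebraMap QBar ↥(laurentBaseChange QBar F₀) c ∈ O) ∧ O ≠ ⊤ ∧
      IsPrincipalIdealRing O := by
  obtain ⟨P, hPO, -⟩ := po_place_of_valSubring F₀ K₁ ι V₁ hK hV1 hV2 O hO
  subst hPO
  exact ⟨P.algebraMap_mem', P.ne_top', P.isPrincipalIdealRing'⟩

end concrete

end Fermat.Agent.H57.ORD

end
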